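import Fermat.Agent.EllTate.Main
import Fermat.Agent.CMP.S58Assembly

/-!
# The Tate modules of a semistable model satisfy the input of the S58 assembly
-/

set_option autoImplicit false

open PadicInt IsLocalRing Polynomial

namespace Fermat.Agent.EllTate

open Fermat.Agent.CMP.S58Assembly

theorem isTateOf_tate {W : WeierstrassCurve ℤ} (hΔ : W.Δ ≠ 0) (hss : W.IsSemistableModel)
    (p : ℕ) [Fact p.Prime] : IsTateOf W p (tate W hΔ p) where
  charpoly_frob _ hℓ hℓp hℓΔ A hA _ hσ := tate_charpoly_frob hΔ hℓ hℓp hℓΔ A hA hσ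
  unip q hq hqp := tate_isUnipotentOnInertiaAt hΔ hq hqp (hss q hq)
  irr hirr := tate_residual_isIrreducible hΔ hirr

/-- **The Tate module input for semistable models.** -/
theorem tateInput {W : WeierstrassCurve ℤ} (hss : W.IsSemistableModel) (hΔ : W.Δ ≠ 0) :
    TateInput W := fun p _ => ⟨tate W hΔ p, isTateOf_tate hΔ hss p⟩

/-- **S58 from S35 and S36.** -/
theorem s58_of_s35_s36 (h35 : S35Prop) (h36 : S36Prop)
    (W : WeierstrassCurve ℤ) (hss : W.IsSemistableModel) (N : ℕ)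
    (p : ℕ) [Fact p.Prime] (hp2 : p ≠ 2) (hirr : W.ModRepIsIrreducible p)
    (hp2N : ¬ p ^ 2 ∣ N)
    (hN : W.IsModularModelOfLevel N) (hbad : ∀ ℓ : ℕ, ℓ.Prime → (ℓ : ℤ) ∣ W.Δ → ℓ ∣ N)
    (hN3 : ∀ q : ℕ, q.Prime → ¬ q ^ 3 ∣ N) :
    W.IsModularModelOfLevel W.conductorLevel :=
  s58_of h35 h36 W N p hp2 hirr hp2N hN hbad hN3 (tateInput hss)

end Fermat.Agent.EllTate
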