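import Fermat.Agent.EllTate.Basic
import Fermat.Agent.Tate.Ordinary
import Fermat.Prelude.Def_FLTPrelim_ModularRep

/-!
# The Tate module of an elliptic curve: conditions at `p`, irreducibility of the residual
representation
-/

set_option autoImplicit false

open PadicInt IsLocalRing Polynomial
open WeierstrassCurve WeierstrassCurve.Affine WeierstrassCurve.Affine.Point
open scoped WeierstrassCurve.Affine TensorProduct

namespace Fermat.Agent.EllTate

open Fermat.Agent.Tate Fermat.Agent.EllTorsion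

local notation "Γℚ" => (AlgebraicClosure ℚ ≃ₐ[ℚ] AlgebraicClosure ℚ)

variable {W : WeierstrassCurve ℚ} [W.IsElliptic] {p : ℕ} [hp : Fact p.Prime]

/-- **Ordinarity of `T_p E`** from subgroups `L_A ⊂ E(ℚ̄)` for the places `A ∣ p`
(see `Tate.IsOrdLine` and `Tate.IsOrdLine.mk_of_card`). -/
theorem isOrdinaryAt
    (hord : ∀ A : ValuationSubring (AlgebraicClosure ℚ), A.LiesOverPrime p →
      ∃ L : AddSubgroup (W⁄(AlgebraicClosure ℚ)).Point, IsOrdLine p A L) :
    (ellTate W p).IsOrdinaryAt p :=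
  Tate.isOrdinaryAt (isTateType W p) hord

/-- **Strict ordinarity of `T_p E`** (multiplicative reduction). -/
theorem isStrictOrdinaryAt (hdet : (ellTate W p).DetIsCyclotomic p)
    (hord : ∀ A : ValuationSubring (AlgebraicClosure ℚ), A.LiesOverPrime p →
      ∃ L : AddSubgroup (W⁄(AlgebraicClosure ℚ)).Point, IsOrdLine p A L ∧
        ∀ σ ∈ A.decompositionSubgroup ℚ, ∃ ε : ℤ, ε * ε = 1 ∧
          ∀ (n : ℕ) (x : (W⁄(AlgebraicClosure ℚ)).Point), p ^ n • x = 0 → σ • x - ε • x ∈ L) :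
    (ellTate W p).IsStrictOrdinaryAt p :=
  Tate.isStrictOrdinaryAt (isTateType W p) hdet hord

/-- **Flatness of `T_p E`** from flat models of `E[p^n]`. -/
theorem isFlatAt {q : ℕ}
    (hflat : ∀ n : ℕ, ∃ act : Γℚ →* AddMonoid.End
        (Submodule.torsionBy ℤ (W⁄(AlgebraicClosure ℚ)).Point (p ^ n : ℕ)),
      (∀ σ x, act σ x = σ • x) ∧ Fermat.FlatModel.HasFlatModel q act) :
    (ellTate W p).IsFlatAt q :=
  Tate.isFlatAt (isTateType W p) fun n => by
    obtain ⟨act, hact, hm⟩ := hflat n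
    exact ⟨act, fun σ x => by rw [hact]; rfl, hm⟩

/-- **Flatness of `T_p E`** from flat models of `E[p^n]`, for the canonical action. -/
theorem isFlatAt' {q : ℕ}
    (hflat : ∀ n : ℕ, Fermat.FlatModel.HasFlatModel q
      (DistribMulAction.toAddMonoidEnd Γℚ
        (Submodule.torsionBy ℤ (W⁄(AlgebraicClosure ℚ)).Point (p ^ n : ℕ)))) :
    (ellTate W p).IsFlatAt q :=
  isFlatAt fun n => ⟨_, fun _ _ => rfl, hflat n⟩

/-- `v ↦ 1 ⊗ v` to the residual representation -/
noncomputable def toResidual (ρ : GaloisRepAdic ℤ_[p]) : ρ.V →+ ρ.residual.V where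
  toFun v := (1 : ResidueField ℤ_[p]) ⊗ₜ[ℤ_[p]] v
  map_zero' := TensorProduct.tmul_zero _ _
  map_add' _ _ := TensorProduct.tmul_add _ _ _

theorem toResidual_ρ (ρ : GaloisRepAdic ℤ_[p]) (σ : Γℚ) (v : ρ.V) :
    toResidual ρ (ρ.ρ σ v) = ρ.residual.ρ σ (toResidual ρ v) := rfl

theorem toResidual_surjective (ρ : GaloisRepAdic ℤ_[p]) :
    Function.Surjective (toResidual ρ) := by
  intro x
  change (ResidueField ℤ_[p] ⊗[ℤ_[p]] ρ.V) at x
  induction x using TensorProduct.induction_on with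
  | zero => exact ⟨0, map_zero _⟩
  | tmul c v =>
    obtain ⟨a, rfl⟩ := IsLocalRing.residue_surjective c
    refine ⟨a • v, ?_⟩
    change (1 : ResidueField ℤ_[p]) ⊗ₜ[ℤ_[p]] (a • v) = residue ℤ_[p] a ⊗ₜ[ℤ_[p]] v
    rw [TensorProduct.tmul_smul, TensorProduct.smul_tmul', Algebra.smul_def, mul_one]
    rfl
  | add x y hx hy =>
    obtain ⟨v, hv⟩ := hx
    obtain ⟨w, hw⟩ := hy
    exact ⟨v + w, by rw [map_add, hv, hw]; rfl⟩

theorem toResidual_eq_zero (ρ : GaloisRepAdic ℤ_[p]) {v : ρ.V}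
    (hv : v ∈ maximalIdeal ℤ_[p] • (⊤ : Submodule ℤ_[p] ρ.V)) : toResidual ρ v = 0 := by
  refine Submodule.smul_induction_on (p := fun x => toResidual ρ x = 0) hv ?_ ?_
  · intro a ha w _
    change (1 : ResidueField ℤ_[p]) ⊗ₜ[ℤ_[p]] (a • w) = 0
    rw [TensorProduct.tmul_smul, TensorProduct.smul_tmul', Algebra.smul_def,
      IsLocalRing.ResidueField.algebraMap_eq, (IsLocalRing.residue_eq_zero_iff a).mpr ha,
      zero_mul, TensorProduct.zero_tmul]
  · intro x y hx hy
    rw [map_add, hx, hy, add_zero]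

/-- `T_p E → E[p]` -/
noncomputable def projOne :
    (ellTate W p).V →+ Submodule.torsionBy ℤ (W⁄(AlgebraicClosure ℚ)).Point p :=
  evTorsionOne (p := p) (M := (W⁄(AlgebraicClosure ℚ)).Point)

theorem isRed_projOne : IsRed (PadicInt.toZMod (p := p)) (projOne (W := W) (p := p)) :=
  isRed_evTorsionOne (isTateType W p).div

theorem projOne_ρ (σ : Γℚ) (v : (ellTate W p).V) :
    projOne ((ellTate W p).ρ σ v) = σ • projOne v := rfl

/-- **Irreducibility of `E[p]` gives irreducibility of the residual representation of `T_p E`.** -/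
theorem residual_isIrreducible
    (hirr : GaloisRepIsIrreducible (K := AlgebraicClosure ℚ) ℚ W p) :
    (ellTate W p).residual.IsIrreducible := by
  intro U hU
  have hker : ∀ v : (ellTate W p).V, projOne v = 0 → toResidual (ellTate W p) v = 0 := by
    intro v hv
    have h1 := isRed_projOne.ker v hv
    rw [PadicInt.ker_toZMod] at h1
    exact toResidual_eq_zero _ h1
  let N₀ : AddSubgroup (Submodule.torsionBy ℤ (W⁄(AlgebraicClosure ℚ)).Point p) :=
    (U.toAddSubgroup.comap (toResidual (ellTate W p))).map projOne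
  let N : Submodule (ZMod p) (Submodule.torsionBy ℤ (W⁄(AlgebraicClosure ℚ)).Point p) :=
    AddSubgroup.toZModSubmodule p N₀
  have hmem : ∀ x, x ∈ N ↔ ∃ v, toResidual (ellTate W p) v ∈ U ∧ projOne v = x := fun x => Iff.rfl
  have hstable : IsGaloisStable ℚ N := by
    intro σ x hx
    obtain ⟨v, hv, rfl⟩ := (hmem x).mp hx
    refine (hmem _).mpr ⟨(ellTate W p).ρ σ v, ?_, projOne_ρ σ v⟩
    rw [toResidual_ρ]
    exact hU σ _ hv
  rcases hirr.2 N hstable with h | h
  · left
    rw [eq_bot_iff]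
    intro u hu
    obtain ⟨v, rfl⟩ := toResidual_surjective _ u
    have h1 : projOne v ∈ N := (hmem _).mpr ⟨v, hu, rfl⟩
    rw [h, Submodule.mem_bot] at h1
    rw [Submodule.mem_bot]
    exact hker v h1
  · right
    rw [eq_top_iff]
    intro u _
    obtain ⟨v, rfl⟩ := toResidual_surjective _ u
    have h1 : projOne v ∈ N := by rw [h]; trivial
    obtain ⟨w, hw, hwv⟩ := (hmem _).mp h1
    have h2 : toResidual (ellTate W p) (v - w) = 0 := hker _ (by rw [map_sub, hwv, sub_self])
    rw [map_sub, sub_eq_zero] at h2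
    rw [h2]
    exact hw

end Fermat.Agent.EllTate
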