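import Fermat.Agent.EllTate.Model
import Fermat.Agent.EllRed.FrobeniusMain
import Fermat.Agent.CMP.Density

/-!
# The Tate module of an integral Weierstrass model: unconditional statements
-/

set_option autoImplicit false

open PadicInt IsLocalRing Polynomial
open WeierstrassCurve WeierstrassCurve.Affine WeierstrassCurve.Affine.Point
open scoped WeierstrassCurve.Affine

namespace Fermat.Agent.EllTate

open Fermat.Agent.Tate Fermat.Agent.EllTorsion Fermat.Agent.Cyclotomic

local notation "Γℚ" => (AlgebraicClosure ℚ ≃ₐ[ℚ] AlgebraicClosure ℚ)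

variable {W : WeierstrassCurve ℤ} (hΔ : W.Δ ≠ 0) {p : ℕ} [hp : Fact p.Prime]

/-- **Characteristic polynomial of Frobenius on `T_p E`.** -/
theorem tate_charpoly_frob {ℓ : ℕ} (hℓ : ℓ.Prime) (hℓp : ℓ ≠ p) (hW : W.IsGoodPrimeFor ℓ)
    (A : ValuationSubring (AlgebraicClosure ℚ)) (hA : A.LiesOverPrime ℓ) {σ : Γℚ}
    (hσ : A.IsFrobeniusAt σ ℓ) :
    LinearMap.charpoly ((tate W hΔ p).ρ σ) =
      X ^ 2 - C ((W.apOfModel ℓ : ℤ) : ℤ_[p]) * X + C (ℓ : ℤ_[p]) := by
  have hn : ∀ n : ℕ, ¬ ℓ ∣ p ^ n := fun n h => hℓp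
    ((Nat.prime_dvd_prime_iff_eq hℓ hp.out).mp (hℓ.dvd_of_dvd_pow h))
  have h := tate_charpoly_eq_of_levels hΔ (p := p) (σ := σ) (W.apOfModel ℓ) (ℓ : ℤ)
    (fun n => EllRed.galoisTrace_frob W hℓ hW (hn n) A hA hσ)
    (fun n => by
      rw [EllRed.det_frob W hℓ hW (hn n) A hA hσ]
      push_cast
      rfl)
  rw [h]
  push_cast
  rfl

/-- **The determinant of `T_p E` is the cyclotomic character.** -/
theorem tate_detIsCyclotomic : (tate W hΔ p).DetIsCyclotomic p := by
  refine tate_detIsCyclotomic_of_levels hΔ CMP.Density.frobDensity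
    ({p} ∪ W.Δ.natAbs.primeFactors) ?_
  intro ℓ hℓ hℓS A hA σ hσ n
  simp only [Finset.mem_union, Finset.mem_singleton, not_or] at hℓS
  refine EllRed.det_frob W hℓ ?_ ?_ A hA hσ
  · intro h
    exact hℓS.2 (Nat.mem_primeFactors.mpr ⟨hℓ, Int.natCast_dvd.mp h, Int.natAbs_ne_zero.mpr hΔ⟩)
  · intro h
    exact hℓS.1 ((Nat.prime_dvd_prime_iff_eq hℓ hp.out).mp (hℓ.dvd_of_dvd_pow h))

/-- The characteristic polynomial of the residual representation. -/
theorem residual_charpoly {A : Type} [CommRing A] [IsLocalRing A] (ρ : GaloisRepAdic A) (σ : Γℚ) :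
    LinearMap.charpoly (ρ.residual.ρ σ) = (LinearMap.charpoly (ρ.ρ σ)).map (residue A) :=
  LinearMap.charpoly_baseChange (ρ.ρ σ) (ResidueField A)

/-- Characteristic polynomial of Frobenius on the residual representation. -/
theorem tate_residual_charpoly_frob {ℓ : ℕ} (hℓ : ℓ.Prime) (hℓp : ℓ ≠ p)
    (hW : W.IsGoodPrimeFor ℓ)
    (A : ValuationSubring (AlgebraicClosure ℚ)) (hA : A.LiesOverPrime ℓ) {σ : Γℚ}
    (hσ : A.IsFrobeniusAt σ ℓ) :
    LinearMap.charpoly ((tate W hΔ p).residual.ρ σ) =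
      X ^ 2 - C ((W.apOfModel ℓ : ℤ) : ResidueField ℤ_[p]) * X + C (ℓ : ResidueField ℤ_[p]) := by
  rw [residual_charpoly, tate_charpoly_frob hΔ hℓ hℓp hW A hA hσ, Polynomial.map_add,
    Polynomial.map_sub, Polynomial.map_mul, Polynomial.map_pow, Polynomial.map_X,
    Polynomial.map_C, Polynomial.map_C, map_intCast, map_natCast]

theorem charP_residueField_padicInt : CharP (ResidueField ℤ_[p]) p :=
  charP_of_injective_ringHom (f := (PadicInt.residueField (p := p)).symm.toRingHom)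
    (PadicInt.residueField (p := p)).symm.injective p

/-- The residual representation of `T_p E` is odd. -/
theorem tate_residual_isOdd : (tate W hΔ p).residual.IsOdd := by
  have := charP_residueField_padicInt (p := p)
  refine FrobCompare.isOdd_of_frob CMP.Density.frobDensity p _
    ({p} ∪ W.Δ.natAbs.primeFactors) ?_
  intro ℓ hℓ hℓS P hP σ hσ
  simp only [Finset.mem_union, Finset.mem_singleton, not_or] at hℓS
  have hW : W.IsGoodPrimeFor ℓ := fun h => hℓS.2 (Nat.mem_primeFactors.mpr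
      ⟨hℓ, Int.natCast_dvd.mp h, Int.natAbs_ne_zero.mpr hΔ⟩)
  have h1 := tate_residual_charpoly_frob hΔ hℓ hℓS.1 hW P hP hσ
  rw [BN2.charpoly_eq_of_finrank_two (tate W hΔ p).residual.finrank_eq] at h1
  have h2 := congrArg (fun P => P.coeff 0) h1
  simpa [coeff_C] using h2

end Fermat.Agent.EllTate
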