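import Fermat.Agent.EllTate.Local
import Fermat.Agent.LOC.Multiplicative
import Fermat.Agent.EllRed.Equivariance

/-!
# The Tate module of an integral Weierstrass model

`tate W hΔ p : GaloisRepAdic ℤ_[p]` for `W : WeierstrassCurve ℤ` with `W.Δ ≠ 0`.
-/

set_option autoImplicit false

open PadicInt IsLocalRing Polynomial
open WeierstrassCurve WeierstrassCurve.Affine WeierstrassCurve.Affine.Point
open scoped WeierstrassCurve.Affine

namespace Fermat.Agent.EllTate

open Fermat.Agent.Tate Fermat.Agent.EllTorsion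

local notation "Γℚ" => (AlgebraicClosure ℚ ≃ₐ[ℚ] AlgebraicClosure ℚ)

theorem isElliptic_of_Δ_ne_zero {W : WeierstrassCurve ℤ} (hΔ : W.Δ ≠ 0) :
    (W.map (Int.castRingHom ℚ)).IsElliptic := by
  refine ⟨?_⟩
  rw [WeierstrassCurve.map_Δ, isUnit_iff_ne_zero]
  simpa using hΔ

/-- The Tate module of an integral Weierstrass model. -/
noncomputable def tate (W : WeierstrassCurve ℤ) (hΔ : W.Δ ≠ 0) (p : ℕ) [Fact p.Prime] :
    GaloisRepAdic ℤ_[p] :=
  haveI := isElliptic_of_Δ_ne_zero hΔ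
  ellTate (W.map (Int.castRingHom ℚ)) p

variable {W : WeierstrassCurve ℤ} (hΔ : W.Δ ≠ 0) {p : ℕ} [hp : Fact p.Prime]

/-- **`T_p E` is unramified at the good primes `q ≠ p`.** -/
theorem tate_isUnramifiedAt {q : ℕ} (hq : q.Prime) (hqp : q ≠ p) (hqW : W.IsGoodPrimeFor q) :
    (tate W hΔ p).IsUnramifiedAt q := by
  have := isElliptic_of_Δ_ne_zero hΔ
  refine isUnramifiedAt_of_levels (W := W.map (Int.castRingHom ℚ)) (p := p) fun n => ?_
  refine EllRed.galoisRepUnramifiedAt_of_good W hq hqW fun h => hqp ?_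
  exact (Nat.prime_dvd_prime_iff_eq hq hp.out).mp (hq.dvd_of_dvd_pow h)

/-- **Inertia at a semistable prime `q ≠ p` acts unipotently on `T_p E`.** -/
theorem tate_isUnipotentOnInertiaAt {q : ℕ} (hq : q.Prime) (hqp : q ≠ p)
    (hss : (q : ℤ) ∣ W.Δ → ¬ (q : ℤ) ∣ W.c₄) :
    (tate W hΔ p).IsUnipotentOnInertiaAt q := by
  have := isElliptic_of_Δ_ne_zero hΔ
  refine isUnipotentOnInertiaAt_of_levels (W := W.map (Int.castRingHom ℚ)) (p := p)
    fun A hA σ hσ n x => ?_
  refine Subtype.ext ?_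
  have hx : (p ^ n) • (x : ((W.map (Int.castRingHom ℚ))⁄(AlgebraicClosure ℚ)).Point) = 0 := by
    rw [← natCast_zsmul]
    exact (Submodule.mem_torsionBy_iff _ _).mp x.2
  exact LOC.inertia_smul_sub W hq hss A hA (m := p ^ n) (fun h => hqp
    ((Nat.prime_dvd_prime_iff_eq hq hp.out).mp (hq.dvd_of_dvd_pow h))) hσ hx

/-- Irreducibility of the residual representation. -/
theorem tate_residual_isIrreducible (hirr : W.ModRepIsIrreducible p) :
    (tate W hΔ p).residual.IsIrreducible := by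
  have := isElliptic_of_Δ_ne_zero hΔ
  exact residual_isIrreducible (W := W.map (Int.castRingHom ℚ)) hirr

/-- The residual representation is `E[p]`. -/
theorem tate_residual_isEquiv (hcard : Nat.card (Submodule.torsionBy ℤ
      ((W.map (Int.castRingHom ℚ))⁄(AlgebraicClosure ℚ)).Point p) = p ^ 2)
    (hker : GaloisFactorsThroughFiniteLevel
      (galoisRepModuleEnd (K := AlgebraicClosure ℚ) ℚ (W.map (Int.castRingHom ℚ)) p))
    (χ : ZMod p →+* ResidueField ℤ_[p]) :
    (tate W hΔ p).residual.IsEquiv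
      (((W.map (Int.castRingHom ℚ)).residualGaloisRepOf p hcard hker).baseChangeAlong χ) := by
  have := isElliptic_of_Δ_ne_zero hΔ
  exact residual_isEquiv (W := W.map (Int.castRingHom ℚ)) hcard hker χ

/-- The residual representation after extension of scalars is `E[p]`. -/
theorem tate_baseChange_residual_isEquiv (hcard : Nat.card (Submodule.torsionBy ℤ
      ((W.map (Int.castRingHom ℚ))⁄(AlgebraicClosure ℚ)).Point p) = p ^ 2)
    (hker : GaloisFactorsThroughFiniteLevel
      (galoisRepModuleEnd (K := AlgebraicClosure ℚ) ℚ (W.map (Int.castRingHom ℚ)) p))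
    {A : Type} [CommRing A] [IsLocalRing A] (ψ : ℤ_[p] →+* A) (hψ : IsLocalHom ψ)
    (χ : ZMod p →+* ResidueField A) :
    ((tate W hΔ p).baseChangeAlong ψ hψ).residual.IsEquiv
      (((W.map (Int.castRingHom ℚ)).residualGaloisRepOf p hcard hker).baseChangeAlong χ) := by
  have := isElliptic_of_Δ_ne_zero hΔ
  exact baseChange_residual_isEquiv (W := W.map (Int.castRingHom ℚ)) hcard hker ψ hψ χ

/-- Characteristic polynomials of elements whose trace and determinant are known on all `E[p^n]`. -/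
theorem tate_charpoly_eq_of_levels {σ : Γℚ} (a b : ℤ)
    (ha : ∀ n, LinearMap.trace _ _ (galoisRepModuleEnd (K := AlgebraicClosure ℚ) ℚ
      (W.map (Int.castRingHom ℚ)) (p ^ n) σ) = (a : ZMod (p ^ n)))
    (hb : ∀ n, LinearMap.det (galoisRepModuleEnd (K := AlgebraicClosure ℚ) ℚ
      (W.map (Int.castRingHom ℚ)) (p ^ n) σ) = (b : ZMod (p ^ n))) :
    LinearMap.charpoly ((tate W hΔ p).ρ σ) = X ^ 2 - C (a : ℤ_[p]) * X + C (b : ℤ_[p]) := by
  have := isElliptic_of_Δ_ne_zero hΔ
  exact charpoly_eq_of_trace_det_levels (W := W.map (Int.castRingHom ℚ)) a b ha hb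

/-- The determinant is cyclotomic as soon as `det (Frob_ℓ | E[p^n]) = ℓ` outside a finite set. -/
theorem tate_detIsCyclotomic_of_levels (hD : FrobCompare.FrobDensity) (S : Finset ℕ)
    (hF : ∀ ℓ : ℕ, ℓ.Prime → ℓ ∉ S → ∀ A : ValuationSubring (AlgebraicClosure ℚ),
      A.LiesOverPrime ℓ → ∀ σ : Γℚ, A.IsFrobeniusAt σ ℓ → ∀ n : ℕ,
        LinearMap.det (galoisRepModuleEnd (K := AlgebraicClosure ℚ) ℚ
          (W.map (Int.castRingHom ℚ)) (p ^ n) σ) = (ℓ : ZMod (p ^ n))) :
    (tate W hΔ p).DetIsCyclotomic p := by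
  have := isElliptic_of_Δ_ne_zero hΔ
  exact detIsCyclotomic_of_levels (W := W.map (Int.castRingHom ℚ)) hD S hF

end Fermat.Agent.EllTate
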