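import Fermat.Agent.Tate.Red
import Fermat.Agent.EllTorsion.Torsion

/-!
# The Tate module of an elliptic curve over `ℚ`

For `W : WeierstrassCurve ℚ` elliptic and a prime `p`, `ellTate W p : GaloisRepAdic ℤ_[p]`.

Transfer from finite levels: characteristic polynomials, determinants, unramifiedness, unipotent
inertia; the residual representation is `E[p]`; the determinant is cyclotomic as soon as it is at
Frobenius elements.
-/

set_option autoImplicit false

open PadicInt IsLocalRing Polynomial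
open WeierstrassCurve WeierstrassCurve.Affine WeierstrassCurve.Affine.Point
open scoped WeierstrassCurve.Affine

namespace Fermat.Agent.EllTate

open Fermat.Agent.Tate Fermat.Agent.EllTorsion

local notation "Γℚ" => (AlgebraicClosure ℚ ≃ₐ[ℚ] AlgebraicClosure ℚ)

section Def

variable (W : WeierstrassCurve ℚ) [W.IsElliptic] (p : ℕ) [hp : Fact p.Prime]

theorem isTateType : IsTateType p (W⁄(AlgebraicClosure ℚ)).Point where
  div n x _ := by
    have : WeierstrassCurve.IsElliptic (W⁄(AlgebraicClosure ℚ)) := isElliptic_baseChange W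
    exact nsmul_surjective hp.out.ne_zero x
  card := by
    have : WeierstrassCurve.IsElliptic (W⁄(AlgebraicClosure ℚ)) := isElliptic_baseChange W
    exact card_nsmul_eq_zero (Nat.cast_ne_zero.mpr hp.out.ne_zero)
  level n := by
    obtain ⟨L, hL, h⟩ := galoisRepModuleEnd_factorsThroughFiniteLevel W
      (pow_ne_zero n hp.out.ne_zero)
    refine ⟨L, hL, fun σ hσ m hm => ?_⟩
    have h1 := LinearMap.congr_fun (h σ hσ) ⟨m, by
      rw [Submodule.mem_torsionBy_iff, natCast_zsmul, hm]⟩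
    exact congrArg Subtype.val h1

/-- **The Tate module of an elliptic curve over `ℚ`**. -/
noncomputable def ellTate : GaloisRepAdic ℤ_[p] := tateRep (isTateType W p)

end Def

variable {W : WeierstrassCurve ℚ} [W.IsElliptic] {p : ℕ} [hp : Fact p.Prime]

/-- The equivariant projection `T_p E → E[p^n]`. -/
noncomputable def proj (n : ℕ) :
    (ellTate W p).V →+ Submodule.torsionBy ℤ (W⁄(AlgebraicClosure ℚ)).Point (p ^ n : ℕ) :=
  levelMap (isTateType W p) n

theorem proj_surjective (n : ℕ) : Function.Surjective (proj (W := W) (p := p) n) :=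
  (isLevel_levelMap (isTateType W p) n).surj

theorem exists_of_proj_eq_zero {n : ℕ} {v : (ellTate W p).V} (h : proj n v = 0) :
    ∃ w, (p : ℤ_[p]) ^ n • w = v :=
  (isLevel_levelMap (isTateType W p) n).ker v h

theorem proj_smul (n : ℕ) (a : ℤ_[p]) (v : (ellTate W p).V) :
    proj n (a • v) = toZModPow n a • proj n v :=
  map_padicInt_smul (n := n) _ a v

theorem proj_ρ (n : ℕ) (σ : Γℚ) (v : (ellTate W p).V) :
    proj n ((ellTate W p).ρ σ v) = σ • proj n v := rfl

theorem ext_proj {v w : (ellTate W p).V} (h : ∀ n, proj n v = proj n w) : v = w :=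
  levelMap_ext (isTateType W p) h

/-! ### Characteristic polynomials -/

theorem charpoly_galoisRepModuleEnd (n : ℕ)
    [Module.Free (ZMod (p ^ n))
      (Submodule.torsionBy ℤ (W⁄(AlgebraicClosure ℚ)).Point (p ^ n : ℕ))]
    [Module.Finite (ZMod (p ^ n))
      (Submodule.torsionBy ℤ (W⁄(AlgebraicClosure ℚ)).Point (p ^ n : ℕ))] (σ : Γℚ) :
    LinearMap.charpoly (galoisRepModuleEnd (K := AlgebraicClosure ℚ) ℚ W (p ^ n) σ) =
      (LinearMap.charpoly ((ellTate W p).ρ σ)).map (toZModPow n) :=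
  charpoly_level (isTateType W p) n σ _ fun _ => rfl

theorem det_galoisRepModuleEnd (n : ℕ) (σ : Γℚ) :
    LinearMap.det (galoisRepModuleEnd (K := AlgebraicClosure ℚ) ℚ W (p ^ n) σ) =
      toZModPow n (LinearMap.det ((ellTate W p).ρ σ)) :=
  det_level (isTateType W p) n σ _ fun _ => rfl

theorem trace_galoisRepModuleEnd (n : ℕ) (σ : Γℚ) :
    LinearMap.trace _ _ (galoisRepModuleEnd (K := AlgebraicClosure ℚ) ℚ W (p ^ n) σ) =
      toZModPow n (LinearMap.trace _ _ ((ellTate W p).ρ σ)) :=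
  trace_level (isTateType W p) n σ _ fun _ => rfl

/-- determinant from finite levels -/
theorem det_eq_of_levels {σ : Γℚ} (b : ℤ)
    (h : ∀ n, LinearMap.det (galoisRepModuleEnd (K := AlgebraicClosure ℚ) ℚ W (p ^ n) σ) =
      (b : ZMod (p ^ n))) : LinearMap.det ((ellTate W p).ρ σ) = (b : ℤ_[p]) :=
  (ext_of_toZModPow (p := p)).mp fun n => by
    rw [← det_galoisRepModuleEnd, h, map_intCast]

/-- trace from finite levels -/
theorem trace_eq_of_levels {σ : Γℚ} (a : ℤ)
    (h : ∀ n, LinearMap.trace _ _ (galoisRepModuleEnd (K := AlgebraicClosure ℚ) ℚ W (p ^ n) σ) =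
      (a : ZMod (p ^ n))) : LinearMap.trace _ _ ((ellTate W p).ρ σ) = (a : ℤ_[p]) :=
  (ext_of_toZModPow (p := p)).mp fun n => by
    rw [← trace_galoisRepModuleEnd, h, map_intCast]

/-- characteristic polynomial from trace and determinant at finite levels -/
theorem charpoly_eq_of_trace_det_levels {σ : Γℚ} (a b : ℤ)
    (ha : ∀ n, LinearMap.trace _ _ (galoisRepModuleEnd (K := AlgebraicClosure ℚ) ℚ W (p ^ n) σ) =
      (a : ZMod (p ^ n)))
    (hb : ∀ n, LinearMap.det (galoisRepModuleEnd (K := AlgebraicClosure ℚ) ℚ W (p ^ n) σ) =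
      (b : ZMod (p ^ n))) :
    LinearMap.charpoly ((ellTate W p).ρ σ) = X ^ 2 - C (a : ℤ_[p]) * X + C (b : ℤ_[p]) := by
  rw [BN2.charpoly_eq_of_finrank_two (ellTate W p).finrank_eq, trace_eq_of_levels a ha,
    det_eq_of_levels b hb]

/-- characteristic polynomial from characteristic polynomials at finite levels -/
theorem charpoly_eq_of_levels {σ : Γℚ} (a b : ℤ)
    (h : ∀ n, ∀ [Module.Free (ZMod (p ^ n))
      (Submodule.torsionBy ℤ (W⁄(AlgebraicClosure ℚ)).Point (p ^ n : ℕ))]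
      [Module.Finite (ZMod (p ^ n))
      (Submodule.torsionBy ℤ (W⁄(AlgebraicClosure ℚ)).Point (p ^ n : ℕ))],
      LinearMap.charpoly (galoisRepModuleEnd (K := AlgebraicClosure ℚ) ℚ W (p ^ n) σ) =
      X ^ 2 - C (a : ZMod (p ^ n)) * X + C (b : ZMod (p ^ n))) :
    LinearMap.charpoly ((ellTate W p).ρ σ) = X ^ 2 - C (a : ℤ_[p]) * X + C (b : ℤ_[p]) := by
  refine polynomial_ext (p := p) fun n => ?_
  have : WeierstrassCurve.IsElliptic (W⁄(AlgebraicClosure ℚ)) := isElliptic_baseChange W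
  have hn : ((p ^ n : ℕ) : AlgebraicClosure ℚ) ≠ 0 :=
    Nat.cast_ne_zero.mpr (pow_ne_zero n hp.out.ne_zero)
  have := free_torsionBy (K := AlgebraicClosure ℚ) W hn
  have := moduleFinite_torsionBy (K := AlgebraicClosure ℚ) W hn
  rw [← charpoly_galoisRepModuleEnd, h]
  simp

/-! ### Local behaviour at `q` -/

theorem ρ_eq_one {σ : Γℚ}
    (h : ∀ (n : ℕ) (x : Submodule.torsionBy ℤ (W⁄(AlgebraicClosure ℚ)).Point (p ^ n : ℕ)),
      σ • x = x) : (ellTate W p).ρ σ = 1 :=
  tateRep_eq_one (isTateType W p) fun n m hm =>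
    congrArg Subtype.val (h n ⟨m, by rw [Submodule.mem_torsionBy_iff, natCast_zsmul, hm]⟩)

theorem smul_eq_of_ρ_eq_one {σ : Γℚ} (h : (ellTate W p).ρ σ = 1) (n : ℕ)
    (x : Submodule.torsionBy ℤ (W⁄(AlgebraicClosure ℚ)).Point (p ^ n : ℕ)) : σ • x = x := by
  obtain ⟨v, rfl⟩ := proj_surjective n x
  rw [← proj_ρ, h, Module.End.one_apply]

theorem isUnramifiedAt_of_levels {q : ℕ}
    (h : ∀ n, GaloisRepUnramifiedAt (K := AlgebraicClosure ℚ) ℚ W (p ^ n) q) :
    (ellTate W p).IsUnramifiedAt q :=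
  fun A hA σ hσ => ρ_eq_one fun n x => h n A hA σ hσ x

theorem sub_one_sq_of_levels {σ : Γℚ}
    (h : ∀ (n : ℕ) (x : Submodule.torsionBy ℤ (W⁄(AlgebraicClosure ℚ)).Point (p ^ n : ℕ)),
      σ • (σ • x - x) = σ • x - x) :
    ((ellTate W p).ρ σ - 1) * ((ellTate W p).ρ σ - 1) = 0 :=
  tateRep_sub_one_sq (isTateType W p) fun n m hm =>
    congrArg Subtype.val (h n ⟨m, by rw [Submodule.mem_torsionBy_iff, natCast_zsmul, hm]⟩)

theorem charpoly_eq_of_unipotent_levels {σ : Γℚ}
    (h : ∀ (n : ℕ) (x : Submodule.torsionBy ℤ (W⁄(AlgebraicClosure ℚ)).Point (p ^ n : ℕ)),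
      σ • (σ • x - x) = σ • x - x) :
    LinearMap.charpoly ((ellTate W p).ρ σ) = (X - 1) ^ 2 :=
  charpoly_eq_of_sq_eq_zero (ellTate W p).finrank_eq _ (sub_one_sq_of_levels h)

theorem isUnipotentOnInertiaAt_of_levels {q : ℕ}
    (h : ∀ A : ValuationSubring (AlgebraicClosure ℚ), A.LiesOverPrime q →
      ∀ σ ∈ A.inertiaSubgroupIn ℚ, ∀ (n : ℕ)
        (x : Submodule.torsionBy ℤ (W⁄(AlgebraicClosure ℚ)).Point (p ^ n : ℕ)),
      σ • (σ • x - x) = σ • x - x) :
    (ellTate W p).IsUnipotentOnInertiaAt q :=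
  fun A hA σ hσ => charpoly_eq_of_unipotent_levels (h A hA σ hσ)

/-! ### Determinant -/

/-- The determinant is cyclotomic as soon as `det (Frob_ℓ | E[p^n]) = ℓ` outside a finite set. -/
theorem detIsCyclotomic_of_levels (hD : FrobCompare.FrobDensity) (S : Finset ℕ)
    (hF : ∀ ℓ : ℕ, ℓ.Prime → ℓ ∉ S → ∀ A : ValuationSubring (AlgebraicClosure ℚ),
      A.LiesOverPrime ℓ → ∀ σ : Γℚ, A.IsFrobeniusAt σ ℓ → ∀ n : ℕ,
        LinearMap.det (galoisRepModuleEnd (K := AlgebraicClosure ℚ) ℚ W (p ^ n) σ) =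
          (ℓ : ZMod (p ^ n))) :
    (ellTate W p).DetIsCyclotomic p :=
  FrobCompare.detIsCyclotomic_of_frob hD (ellTate W p) hp.out.ne_zero
    (by rw [PadicInt.maximalIdeal_eq_span_p]; exact Ideal.subset_span rfl) S
    fun ℓ hℓ hℓS A hA σ hσ => by
      have := det_eq_of_levels (W := W) (p := p) (σ := σ) (ℓ : ℤ) fun n => by
        rw [hF ℓ hℓ hℓS A hA σ hσ n, Int.cast_natCast]
      rw [this, Int.cast_natCast]

/-! ### The residual representation -/

theorem residue_comp_eq {A : Type} [CommRing A] [IsLocalRing A] (ψ : ℤ_[p] →+* A)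
    (hψ : IsLocalHom ψ) (χ : ZMod p →+* ResidueField A) :
    (residue A).comp ψ = χ.comp (PadicInt.toZMod (p := p)) := by
  ext a
  have h3 := appr_spec 1 a
  rw [pow_one, Ideal.mem_span_singleton'] at h3
  obtain ⟨c, hc⟩ := h3
  have ha : a = (a.appr 1 : ℤ_[p]) + c * p := by rw [hc]; ring
  have h0 : residue A (ψ (p : ℤ_[p])) = 0 := by
    rw [residue_eq_zero_iff]
    have h1 : (p : ℤ_[p]) ∈ maximalIdeal ℤ_[p] := by
      rw [PadicInt.maximalIdeal_eq_span_p]; exact Ideal.subset_span rfl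
    exact map_nonunit ψ _ h1
  rw [map_natCast, map_natCast] at h0
  rw [ha]
  simp only [RingHom.comp_apply, map_add, map_mul, map_natCast, h0, mul_zero]

/-- A common matrix model for `T_p E` and `E[p]`. -/
theorem exists_isModel (hcard : Nat.card (Submodule.torsionBy ℤ
      (W⁄(AlgebraicClosure ℚ)).Point p) = p ^ 2)
    (hker : GaloisFactorsThroughFiniteLevel
      (galoisRepModuleEnd (K := AlgebraicClosure ℚ) ℚ W p)) :
    ∃ m : Γℚ →* Matrix (Fin 2) (Fin 2) ℤ_[p], UDef.IsModel (ellTate W p) m ∧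
      UDef.IsModelR (W.residualGaloisRepOf p hcard hker)
        (UDef.mapRep (PadicInt.toZMod (p := p)) m) := by
  obtain ⟨m, b, hb⟩ := UDef.exists_model (ellTate W p)
  refine ⟨m, ⟨b, hb⟩, ?_⟩
  have hr := isRed_evTorsionOne (isTateType W p).div
  refine ⟨hr.basis b, fun σ => ?_⟩
  rw [UDef.mapRep_apply, ← hb]
  exact hr.toMatrix b ((ellTate W p).ρ σ) _ fun x => rfl

/-- The residual representation of `T_p E` is `E[p]`. -/
theorem residual_isEquiv (hcard : Nat.card (Submodule.torsionBy ℤ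
      (W⁄(AlgebraicClosure ℚ)).Point p) = p ^ 2)
    (hker : GaloisFactorsThroughFiniteLevel
      (galoisRepModuleEnd (K := AlgebraicClosure ℚ) ℚ W p))
    (χ : ZMod p →+* ResidueField ℤ_[p]) :
    (ellTate W p).residual.IsEquiv ((W.residualGaloisRepOf p hcard hker).baseChangeAlong χ) := by
  obtain ⟨m, h1, h2⟩ := exists_isModel hcard hker
  refine h1.residual.isEquiv (h2.baseChangeAlong χ) 1 isUnit_one fun σ => ?_
  rw [one_mul, mul_one]
  have h3 := residue_comp_eq (p := p) (RingHom.id ℤ_[p]) ⟨fun _ h => h⟩ χ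
  rw [UDef.mapRep_apply, UDef.mapRep_apply, UDef.mapRep_apply, Matrix.map_map]
  ext i j
  exact RingHom.congr_fun h3 (m σ i j)

/-- The residual representation of `T_p E ⊗ A` is `E[p] ⊗ A / 𝔪`. -/
theorem baseChange_residual_isEquiv (hcard : Nat.card (Submodule.torsionBy ℤ
      (W⁄(AlgebraicClosure ℚ)).Point p) = p ^ 2)
    (hker : GaloisFactorsThroughFiniteLevel
      (galoisRepModuleEnd (K := AlgebraicClosure ℚ) ℚ W p))
    {A : Type} [CommRing A] [IsLocalRing A] (ψ : ℤ_[p] →+* A) (hψ : IsLocalHom ψ)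
    (χ : ZMod p →+* ResidueField A) :
    ((ellTate W p).baseChangeAlong ψ hψ).residual.IsEquiv
      ((W.residualGaloisRepOf p hcard hker).baseChangeAlong χ) := by
  obtain ⟨m, h1, h2⟩ := exists_isModel hcard hker
  refine (h1.baseChangeAlong ψ hψ).residual.isEquiv (h2.baseChangeAlong χ) 1 isUnit_one fun σ => ?_
  rw [one_mul, mul_one]
  have h3 := residue_comp_eq ψ hψ χ
  rw [UDef.mapRep_apply, UDef.mapRep_apply, UDef.mapRep_apply, UDef.mapRep_apply,
    Matrix.map_map, Matrix.map_map]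
  ext i j
  exact RingHom.congr_fun h3 (m σ i j)

end Fermat.Agent.EllTate
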